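import Fermat.Agent.HasseBound.Series
import Mathlib.NumberTheory.EulerProduct.Basic
import Mathlib.Analysis.SpecialFunctions.Log.Summable
import Mathlib.Analysis.Normed.Ring.InfiniteSum

/-!
# The Euler product and the absence of zeros for `3/2 < re s`

The L-series of a Weierstrass curve over `ℚ` is the product of the inverses of the local
polynomials at `p ^ (-s)` for `3/2 < re s`, so it has no zero there; by the functional equation the
zeros of the completed function of a semistable elliptic curve lie in the strip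
`1/2 ≤ re s ≤ 3/2`.
-/

set_option autoImplicit false

noncomputable section

open WeierstrassCurve IsDedekindDomain NumberField
open Rat.HeightOneSpectrum (primesEquiv)
open scoped Real

namespace FA.HasseBound

/-- The local polynomial of `E` at the prime `p`. -/
def localPoly (E : WeierstrassCurve ℚ) (p : Nat.Primes) : Polynomial ℤ :=
  (E.baseChange ((primesEquiv.symm p : HeightOneSpectrum (𝓞 ℚ)).adicCompletion ℚ)).localPolynomial
    ((primesEquiv.symm p : HeightOneSpectrum (𝓞 ℚ)).adicCompletionIntegers ℚ)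

/-- The constant term of a local polynomial is `1`. -/
theorem coeff_zero_localPolynomial {R K : Type*} [CommRing R] [IsDomain R]
    [IsDiscreteValuationRing R] [Field K] [Algebra R K] [IsFractionRing R K]
    (W : WeierstrassCurve K) : (W.localPolynomial R).coeff 0 = 1 := by
  unfold localPolynomial
  split_ifs <;> simp

/-- The L-function at a prime power, from the local polynomial. -/
theorem sum_coeff_mul_LFunction (E : WeierstrassCurve ℚ) (p : Nat.Primes) (n : ℕ) :
    ∑ x ∈ Finset.HasAntidiagonal.antidiagonal n,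
      E.LFunction ((p : ℕ) ^ x.1) * (localPoly E p).coeff x.2 = if n = 0 then 1 else 0 := by
  have hp : (primesEquiv (primesEquiv.symm p : HeightOneSpectrum (𝓞 ℚ)) : ℕ) = p :=
    congrArg Subtype.val (primesEquiv.apply_symm_apply p)
  have h := congrArg (PowerSeries.coeff n) (PowerSeries.invOfUnit_mul
    ((localPoly E p : Polynomial ℤ) : PowerSeries ℤ) 1 (by
      rw [← PowerSeries.coeff_zero_eq_constantCoeff, Polynomial.coeff_coe, localPoly,
        coeff_zero_localPolynomial, Units.val_one]))
  rw [PowerSeries.coeff_mul, PowerSeries.coeff_one] at h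
  rw [← h]
  refine Finset.sum_congr rfl fun x _ => ?_
  rw [← hp, FA.Root.LFunction_apply_prime_pow, Polynomial.coeff_coe]
  rfl

/-- The terms of the L-series form a multiplicative function. -/
theorem term_mul_of_coprime (E : WeierstrassCurve ℚ) (s : ℂ) {m n : ℕ} (h : m.Coprime n) :
    LSeries.term ((↑) ∘ E.LFunction) s (m * n) =
      LSeries.term ((↑) ∘ E.LFunction) s m * LSeries.term ((↑) ∘ E.LFunction) s n := by
  rcases eq_or_ne m 0 with rfl | hm
  · simp
  rcases eq_or_ne n 0 with rfl | hn
  · simp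
  rw [LSeries.term_of_ne_zero (mul_ne_zero hm hn), LSeries.term_of_ne_zero hm,
    LSeries.term_of_ne_zero hn, div_mul_div_comm, Function.comp_apply, Function.comp_apply,
    Function.comp_apply, (FA.Root.isMultiplicative_LFunction E).map_mul_of_coprime h,
    Int.cast_mul, Nat.cast_mul, Complex.natCast_mul_natCast_cpow]

theorem term_one (E : WeierstrassCurve ℚ) (s : ℂ) :
    LSeries.term ((↑) ∘ E.LFunction) s 1 = 1 := by
  simp [LSeries.term_of_ne_zero, (FA.Root.isMultiplicative_LFunction E).map_one]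

theorem injective_primePow : Function.Injective fun x : Nat.Primes × ℕ => (x.1 : ℕ) ^ (x.2 + 1) :=
  fun _ _ h => Nat.Primes.prodNatEquiv.injective (Subtype.ext h)

/-- The series over the powers of a prime is absolutely convergent. -/
theorem summable_norm_primePow (E : WeierstrassCurve ℚ) {s : ℂ} (hs : 3 / 2 < s.re)
    (p : Nat.Primes) :
    Summable fun k => ‖LSeries.term ((↑) ∘ E.LFunction) s ((p : ℕ) ^ k)‖ :=
  (LSeriesSummable_LFunction E hs).norm.comp_injective
    (Nat.pow_right_injective p.2.two_le)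

/-- The series over the powers of `p` times the local polynomial at `p ^ (-s)` is `1`. -/
theorem tsum_primePow_mul (E : WeierstrassCurve ℚ) {s : ℂ} (hs : 3 / 2 < s.re) (p : Nat.Primes) :
    (∑' k, LSeries.term ((↑) ∘ E.LFunction) s ((p : ℕ) ^ k)) *
      (localPoly E p).aeval (((p : ℕ) : ℂ) ^ (-s)) = 1 := by
  set x := ((p : ℕ) : ℂ) ^ (-s) with hx
  set P := localPoly E p with hP
  have hterm : ∀ k, LSeries.term ((↑) ∘ E.LFunction) s ((p : ℕ) ^ k) =
      (E.LFunction ((p : ℕ) ^ k) : ℂ) * x ^ k := fun k => by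
    rw [LSeries.term_of_ne_zero (pow_ne_zero _ p.2.ne_zero), Function.comp_apply, hx,
      Complex.cpow_neg, inv_pow, div_eq_mul_inv, ← Complex.cpow_nat_mul,
      Nat.cast_pow, Complex.natCast_cpow_natCast_mul]
  have hzero : ∀ k ∉ Finset.range (P.natDegree + 1), (P.coeff k : ℂ) * x ^ k = 0 := fun k hk => by
    rw [Polynomial.coeff_eq_zero_of_natDegree_lt (by simpa using hk), Int.cast_zero, zero_mul]
  have hg : Summable fun k => ‖(P.coeff k : ℂ) * x ^ k‖ :=
    summable_of_ne_finset_zero (s := Finset.range (P.natDegree + 1)) fun k hk => by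
      rw [hzero k hk, norm_zero]
  have haeval : P.aeval x = ∑' k, (P.coeff k : ℂ) * x ^ k := by
    rw [Polynomial.aeval_eq_sum_range, tsum_eq_sum hzero]
    exact Finset.sum_congr rfl fun k _ => by rw [zsmul_eq_mul]
  rw [haeval, tsum_mul_tsum_eq_tsum_sum_antidiagonal_of_summable_norm
    (summable_norm_primePow E hs p) hg, tsum_eq_single 0]
  · have h := sum_coeff_mul_LFunction E p 0
    simp only [← hP] at h
    simpa [hterm, (FA.Root.isMultiplicative_LFunction E).map_one] using h
  · intro n hn
    have h : ((∑ y ∈ Finset.HasAntidiagonal.antidiagonal n,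
        E.LFunction ((p : ℕ) ^ y.1) * P.coeff y.2 : ℤ) : ℂ) = 0 := by
      rw [hP, sum_coeff_mul_LFunction, if_neg hn, Int.cast_zero]
    push_cast at h
    rw [← mul_zero (x ^ n), ← h, Finset.mul_sum]
    refine Finset.sum_congr rfl fun y hy => ?_
    rw [hterm, ← Finset.HasAntidiagonal.mem_antidiagonal.mp hy, pow_add]
    ring

end FA.HasseBound

namespace FA.Summary

open FA.HasseBound

/-- **The Euler product**: for `3/2 < re s` the L-series is the product over the primes of the
inverses of the local polynomials at `p ^ (-s)`. -/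
theorem lSeries_eulerProduct (E : WeierstrassCurve ℚ) {s : ℂ} (hs : 3 / 2 < s.re) :
    HasProd (fun p : Nat.Primes => ((localPoly E p).aeval (((p : ℕ) : ℂ) ^ (-s)))⁻¹)
      (E.LSeries s) := by
  have h := EulerProduct.eulerProduct_hasProd (term_one E s) (fun h => term_mul_of_coprime E s h)
    (LSeriesSummable_LFunction E hs).norm (LSeries.term_zero _ _)
  refine h.congr_fun fun p => ?_
  exact (eq_inv_of_mul_eq_one_left (tsum_primePow_mul E hs p)).symm

/-- **The L-series of a Weierstrass curve over `ℚ` has no zero for `3/2 < re s`.** -/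
theorem lSeries_ne_zero (E : WeierstrassCurve ℚ) {s : ℂ} (hs : 3 / 2 < s.re) :
    E.LSeries s ≠ 0 := by
  set f := LSeries.term ((↑) ∘ E.LFunction) s with hf
  have hsum : Summable (‖f ·‖) := (LSeriesSummable_LFunction E hs).norm
  have h := EulerProduct.eulerProduct_tprod (term_one E s) (fun h => term_mul_of_coprime E s h)
    hsum (LSeries.term_zero _ _)
  rw [WeierstrassCurve.LSeries, LSeries, ← hf, ← h]
  set u : Nat.Primes → ℂ := fun p => (∑' e, f ((p : ℕ) ^ e)) - 1 with hu
  rw [show (fun p : Nat.Primes => ∑' e, f ((p : ℕ) ^ e)) = fun p => 1 + u p from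
    funext fun p => by rw [hu]; ring]
  refine tprod_one_add_ne_zero_of_summable (fun p => ?_) ?_
  · rw [hu, show (1 : ℂ) + ((∑' e, f ((p : ℕ) ^ e)) - 1) = ∑' e, f ((p : ℕ) ^ e) by ring]
    exact left_ne_zero_of_mul_eq_one (tsum_primePow_mul E hs p)
  · have hpair : Summable fun x : Nat.Primes × ℕ => ‖f ((x.1 : ℕ) ^ (x.2 + 1))‖ :=
      hsum.comp_injective injective_primePow
    have hp := (summable_prod_of_nonneg fun _ => norm_nonneg _).mp hpair
    refine hp.2.of_nonneg_of_le (fun p => norm_nonneg _) fun p => ?_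
    show ‖(∑' e, LSeries.term ((↑) ∘ E.LFunction) s ((p : ℕ) ^ e)) - 1‖ ≤ _
    rw [(summable_norm_primePow E hs p).of_norm.tsum_eq_zero_add, pow_zero, term_one,
      add_sub_cancel_left]
    exact norm_tsum_le_tsum_norm (hp.1 p)

/-- **The zeros of the completed L-function of a semistable elliptic curve** lie in the strip
`1/2 ≤ re s ≤ 3/2`. -/
theorem completed_zeros_in_strip (E : WeierstrassCurve ℚ) [E.IsElliptic]
    (h : ∀ p : ℕ, ∀ [Fact p.Prime], ∃ C : VariableChange ℚ_[p],
      HasGoodReduction ℤ_[p] (C • E.map (algebraMap ℚ ℚ_[p])) ∨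
        HasMultiplicativeReduction ℤ_[p] (C • E.map (algebraMap ℚ ℚ_[p]))) :
    ∃ (N : ℕ) (ε : ℂ) (Λ : ℂ → ℂ), Squarefree N ∧ (ε = 1 ∨ ε = -1) ∧ Differentiable ℂ Λ ∧
      (∀ s : ℂ, 3 / 2 < s.re →
        Λ s = (N : ℂ) ^ (s / 2) * (2 * (π : ℂ)) ^ (-s) * Complex.Gamma s * E.LSeries s) ∧
      (∀ s : ℂ, Λ (2 - s) = ε * Λ s) ∧
      ∀ s : ℂ, Λ s = 0 → 1 / 2 ≤ s.re ∧ s.re ≤ 3 / 2 := by
  obtain ⟨N, ε, Λ, hN, hε, hd, hs, hfe⟩ := functionalEquation_threeHalves E h
  have hne : ∀ s : ℂ, 3 / 2 < s.re → Λ s ≠ 0 := fun s hs' => by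
    rw [hs s hs']
    refine mul_ne_zero (mul_ne_zero (mul_ne_zero ?_ ?_)
      (Complex.Gamma_ne_zero_of_re_pos (by linarith))) (lSeries_ne_zero E hs')
    · exact (Complex.cpow_ne_zero_iff).mpr (Or.inl (Nat.cast_ne_zero.mpr hN.ne_zero))
    · exact (Complex.cpow_ne_zero_iff).mpr
        (Or.inl (mul_ne_zero two_ne_zero (Complex.ofReal_ne_zero.mpr Real.pi_ne_zero)))
  refine ⟨N, ε, Λ, hN, hε, hd, hs, hfe, fun s h0 => ⟨?_, not_lt.mp fun h' => hne s h' h0⟩⟩
  by_contra h'
  refine hne (2 - s) (by rw [Complex.sub_re, Complex.re_ofNat]; linarith) ?_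
  rw [hfe, h0, mul_zero]

end FA.Summary

end
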