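import Fermat.Agent.HasseBound.Main
import Fermat.Agent.Root.LFunctionForm

/-!
# Hasse's bound in Mathlib's language
-/

set_option autoImplicit false

noncomputable section

open WeierstrassCurve

namespace FA.Summary

/-- **Hasse's theorem**: an elliptic curve over `𝔽_p` has `|p + 1 - #E(𝔽_p)| ≤ 2 √p`. -/
theorem hasse_bound {p : ℕ} [Fact p.Prime] (W : WeierstrassCurve (ZMod p)) [W.IsElliptic] :
    |(p : ℝ) + 1 - Nat.card W.toAffine.Point| ≤ 2 * Real.sqrt p :=
  FA.HasseBound.hasse W

/-- The coefficient of the L-function of `E` at a prime of good reduction of an integral model has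
`a_p² ≤ 4 p`. -/
theorem hasse_LFunction (E : WeierstrassCurve ℚ) (W : WeierstrassCurve ℤ) (C : VariableChange ℚ)
    (hW : C • E = W.map (Int.castRingHom ℚ)) {p : ℕ} (hp : p.Prime)
    (hgood : ¬ (p : ℤ) ∣ W.Δ) : E.LFunction p ^ 2 ≤ 4 * (p : ℤ) := by
  rw [FA.Root.LFunction_apply_prime E W ⟨C, hW⟩ hp hgood, apOfModel]
  have := Fact.mk hp
  have : (W.reductionMod p).IsElliptic := by
    refine ⟨isUnit_iff_ne_zero.mpr ?_⟩
    rw [reductionMod, WeierstrassCurve.map_Δ]
    exact fun h => hgood ((ZMod.intCast_zmod_eq_zero_iff_dvd _ p).mp h)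
  exact FA.HasseBound.traceOfFrobenius_sq_le _

end FA.Summary

end
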