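import Fermat.Agent.HasseBound.Coeffs
import Fermat.Agent.Root.LFunctionFE
import Mathlib.Analysis.SpecialFunctions.Gamma.Deriv

/-!
# The half-plane of absolute convergence

The L-series of a Weierstrass curve over `ℚ` converges absolutely for `3/2 < re s`, and for a
semistable elliptic curve the entire continuation and the completed function agree with it there.
-/

set_option autoImplicit false

noncomputable section

open WeierstrassCurve
open scoped Real

namespace FA.HasseBound

/-- The half-plane `3/2 < re s`. -/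
theorem isPreconnected_threeHalves : IsPreconnected {s : ℂ | (3 / 2 : ℝ) < s.re} :=
  (convex_halfSpace_re_gt _).isPreconnected

/-- The L-series is holomorphic for `3/2 < re s`. -/
theorem analyticOnNhd_LSeries (E : WeierstrassCurve ℚ) :
    AnalyticOnNhd ℂ E.LSeries {s : ℂ | (3 / 2 : ℝ) < s.re} :=
  (LSeries_analyticOnNhd _).mono fun _ hs =>
    (abscissaOfAbsConv_LFunction_le E).trans_lt (EReal.coe_lt_coe_iff.mpr hs)

/-- The factor `N ^ (s / 2) (2 π) ^ (-s) Γ (s)` is holomorphic for `3/2 < re s`. -/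
theorem analyticOnNhd_completionFactor {N : ℕ} (hN : N ≠ 0) :
    AnalyticOnNhd ℂ (fun s : ℂ => (N : ℂ) ^ (s / 2) * (2 * (π : ℂ)) ^ (-s) * Complex.Gamma s)
      {s : ℂ | (3 / 2 : ℝ) < s.re} := by
  refine DifferentiableOn.analyticOnNhd (fun z hz => DifferentiableAt.differentiableWithinAt ?_)
    (isOpen_lt continuous_const Complex.continuous_re)
  have hG : DifferentiableAt ℂ Complex.Gamma z := Complex.differentiableAt_Gamma z fun m e => by
    have : (3 / 2 : ℝ) < z.re := hz
    rw [e, Complex.neg_re, Complex.natCast_re] at this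
    linarith [(Nat.cast_nonneg m : (0 : ℝ) ≤ m)]
  refine DifferentiableAt.mul (DifferentiableAt.mul ?_ ?_) hG
  · exact ((differentiableAt_id.div_const 2).const_cpow (Or.inl (Nat.cast_ne_zero.mpr hN)))
  · exact (differentiableAt_id.neg.const_cpow
      (Or.inl (mul_ne_zero two_ne_zero (Complex.ofReal_ne_zero.mpr Real.pi_ne_zero))))

/-- Two holomorphic functions on `3/2 < re s` that agree for `2 < re s` are equal. -/
theorem eqOn_threeHalves {F G : ℂ → ℂ}
    (hF : AnalyticOnNhd ℂ F {s : ℂ | (3 / 2 : ℝ) < s.re})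
    (hG : AnalyticOnNhd ℂ G {s : ℂ | (3 / 2 : ℝ) < s.re})
    (h : ∀ s : ℂ, 2 < s.re → F s = G s) : Set.EqOn F G {s : ℂ | (3 / 2 : ℝ) < s.re} := by
  refine hF.eqOn_of_preconnected_of_eventuallyEq hG isPreconnected_threeHalves (z₀ := 3)
    (by norm_num) ?_
  filter_upwards [(Complex.continuous_re.isOpen_preimage _ isOpen_Ioi).mem_nhds
    (show (3 : ℂ).re ∈ Set.Ioi (2 : ℝ) by norm_num)] with s hs using h s hs

end FA.HasseBound

namespace FA.Summary

open FA.HasseBound

/-- The coefficients of the L-function of a Weierstrass curve over `ℚ` satisfy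
`|a_n| ≤ d(n) √n`. -/
theorem lFunction_abs_le (E : WeierstrassCurve ℚ) (n : ℕ) :
    |(E.LFunction n : ℝ)| ≤ (n.divisors.card : ℝ) * Real.sqrt n := by
  rw [← ArithmeticFunction.sigma_zero_apply]
  exact abs_LFunction_le E n

/-- The L-series of a Weierstrass curve over `ℚ` converges absolutely for `3/2 < re s`. -/
theorem lSeries_summable (E : WeierstrassCurve ℚ) {s : ℂ} (hs : 3 / 2 < s.re) :
    LSeriesSummable ((↑) ∘ E.LFunction) s :=
  LSeriesSummable_LFunction E hs

/-- **Continuation**: the L-series of a semistable elliptic curve, defined by an absolutely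
convergent series for `3/2 < re s`, extends to an entire function. -/
theorem entire_continuation_threeHalves (E : WeierstrassCurve ℚ) [E.IsElliptic]
    (h : ∀ p : ℕ, ∀ [Fact p.Prime], ∃ C : VariableChange ℚ_[p],
      HasGoodReduction ℤ_[p] (C • E.map (algebraMap ℚ ℚ_[p])) ∨
        HasMultiplicativeReduction ℤ_[p] (C • E.map (algebraMap ℚ ℚ_[p]))) :
    ∃ g : ℂ → ℂ, Differentiable ℂ g ∧ ∀ s : ℂ, 3 / 2 < s.re →
      LSeriesSummable ((↑) ∘ E.LFunction) s ∧ E.LSeries s = g s := by
  obtain ⟨g, hg, hgs⟩ := FA.Root.exists_differentiable_eq_LSeries_of_semistable E h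
  exact ⟨g, hg, fun s hs => ⟨lSeries_summable E hs,
    eqOn_threeHalves (analyticOnNhd_LSeries E) (fun z _ => hg.analyticAt z)
      (fun z hz => (hgs z hz).2) hs⟩⟩

/-- **Functional equation**, with the completed function given by the series on the whole
half-plane of absolute convergence. -/
theorem functionalEquation_threeHalves (E : WeierstrassCurve ℚ) [E.IsElliptic]
    (h : ∀ p : ℕ, ∀ [Fact p.Prime], ∃ C : VariableChange ℚ_[p],
      HasGoodReduction ℤ_[p] (C • E.map (algebraMap ℚ ℚ_[p])) ∨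
        HasMultiplicativeReduction ℤ_[p] (C • E.map (algebraMap ℚ ℚ_[p]))) :
    ∃ (N : ℕ) (ε : ℂ) (Λ : ℂ → ℂ), Squarefree N ∧ (ε = 1 ∨ ε = -1) ∧ Differentiable ℂ Λ ∧
      (∀ s : ℂ, 3 / 2 < s.re →
        Λ s = (N : ℂ) ^ (s / 2) * (2 * (π : ℂ)) ^ (-s) * Complex.Gamma s * E.LSeries s) ∧
      ∀ s : ℂ, Λ (2 - s) = ε * Λ s := by
  obtain ⟨N, ε, Λ, hN, hε, hd, hs, hfe⟩ :=
    FA.Root.exists_completed_LSeries_functional_equation E h
  refine ⟨N, ε, Λ, hN, hε, hd, fun s hs' => ?_, hfe⟩
  exact eqOn_threeHalves (fun z _ => hd.analyticAt z)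
    ((analyticOnNhd_completionFactor hN.ne_zero).mul (analyticOnNhd_LSeries E)) hs hs'

end FA.Summary

end
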