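import Fermat.Agent.HasseBound.FiniteField
import Fermat.Agent.Root.LFunctionBad
import Fermat.Agent.Root.LFunctionCoeffs
import Mathlib.NumberTheory.LSeries.Deriv
import Mathlib.NumberTheory.LSeries.Dirichlet

/-!
# The size of the coefficients of the L-function

Hasse's bound at the good primes gives `|a_n| ≤ d(n) √n` for every Weierstrass curve over `ℚ`, so
the L-series converges absolutely for `3/2 < re s`. No integral model and no hypothesis on the
reduction is needed: at a bad prime the local polynomial is `1` or `1 ± T`.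
-/

set_option autoImplicit false

noncomputable section

open WeierstrassCurve IsDedekindDomain NumberField ArithmeticFunction
open Rat.HeightOneSpectrum (primesEquiv)
open scoped ArithmeticFunction.sigma ArithmeticFunction.zeta

namespace FA.HasseBound

/-- A sequence with the recursion of `1 / (1 - a T + q T²)`, where `a² ≤ 4 q`. -/
theorem abs_recursion_le {q : ℝ} {a : ℝ} (ha : a ^ 2 ≤ 4 * q) (c : ℕ → ℝ) (h0 : c 0 = 1)
    (h1 : c 1 = a) (hrec : ∀ r, c (r + 2) = a * c (r + 1) - q * c r) (k : ℕ) :
    |c k| ≤ (k + 1) * Real.sqrt q ^ k := by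
  obtain ⟨α, β, hsum, hprod, hnα, hnβ⟩ := exists_roots_norm_eq ha
  have key : ∀ n, (c (n + 1) : ℂ) = α ^ (n + 1) + β * (c n : ℂ) := by
    intro n
    induction n with
    | zero => simp [h0, h1, hsum]
    | succ n ih =>
      have hr : (c (n + 2) : ℂ) = (a : ℂ) * (c (n + 1) : ℂ) - (q : ℂ) * (c n : ℂ) := by
        exact_mod_cast congrArg ((↑) : ℝ → ℂ) (hrec n)
      rw [hr, ← hsum, ← hprod, show α ^ (n + 1 + 1) = α * α ^ (n + 1) from pow_succ' α (n + 1)]
      linear_combination α * ih
  induction k with
  | zero => simp [h0]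
  | succ k ih =>
    have h : |c (k + 1)| ≤ ‖α‖ ^ (k + 1) + ‖β‖ * |c k| := by
      rw [← Real.norm_eq_abs, ← Complex.norm_real, key k]
      refine (norm_add_le _ _).trans (le_of_eq ?_)
      rw [norm_pow, norm_mul, Complex.norm_real, Real.norm_eq_abs]
    rw [hnα, hnβ] at h
    refine h.trans ?_
    have := mul_le_mul_of_nonneg_left ih (Real.sqrt_nonneg q)
    push_cast
    rw [pow_succ] at *
    linarith

section Local

variable {R K : Type*} [CommRing R] [IsDomain R] [IsDiscreteValuationRing R] [Field K]
  [Algebra R K] [IsFractionRing R K]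

open IsLocalRing

/-- The local power series has coefficients at most `(k + 1) q^(k/2)`. -/
theorem abs_coeff_localPowerSeries_le [Finite (ResidueField R)] (W : WeierstrassCurve K) (k : ℕ) :
    |((PowerSeries.coeff k (W.localPowerSeries R) : ℤ) : ℝ)| ≤
      (k + 1) * Real.sqrt (Nat.card (ResidueField R)) ^ k := by
  classical
  have : Fintype (ResidueField R) := Fintype.ofFinite _
  have hq : 1 ≤ Real.sqrt (Nat.card (ResidueField R)) :=
    Real.one_le_sqrt.mpr (by exact_mod_cast Nat.card_pos (α := ResidueField R))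
  have hbad : ∀ ε : ℤ, |(ε : ℝ)| ≤ 1 →
      W.localPolynomial R = 1 - Polynomial.C ε * Polynomial.X →
      |((PowerSeries.coeff k (W.localPowerSeries R) : ℤ) : ℝ)| ≤
        (k + 1) * Real.sqrt (Nat.card (ResidueField R)) ^ k := fun ε hε he => by
    rw [localPowerSeries, he, FA.Root.coeff_invOfUnit_linear, Int.cast_pow, abs_pow]
    exact (pow_le_one₀ (abs_nonneg _) hε).trans
      (one_le_mul_of_one_le_of_one_le (by simp) (one_le_pow₀ hq))
  by_cases hg : (W.minimal R).HasGoodReduction R
  · have : ((W.minimal R).reduction R).IsElliptic :=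
      (hasGoodReduction_iff_isElliptic_reduction (R := R)).mp hg
    set a : ℤ := (Nat.card (ResidueField R) : ℤ) + 1 -
      Nat.card ((W.minimal R).reduction R).toAffine.Point with ha
    have hle : a ^ 2 ≤ 4 * (Nat.card (ResidueField R) : ℤ) := by
      rw [ha, Nat.card_eq_fintype_card (α := ResidueField R)]
      exact sq_le_of_finite _
    have he : W.localPowerSeries R = PowerSeries.invOfUnit
        ((1 - Polynomial.C a * Polynomial.X +
          Polynomial.C (Nat.card (ResidueField R) : ℤ) * Polynomial.X ^ 2 : Polynomial ℤ) :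
            PowerSeries ℤ) 1 := by
      rw [localPowerSeries, localPolynomial, if_pos hg, ha]
    rw [he]
    refine abs_recursion_le (a := (a : ℝ)) (by exact_mod_cast hle)
      (fun j => ((PowerSeries.coeff j _ : ℤ) : ℝ)) ?_ ?_ (fun r => ?_) k
    · simp
    · set P : Polynomial ℤ := 1 - Polynomial.C a * Polynomial.X +
        Polynomial.C (Nat.card (ResidueField R) : ℤ) * Polynomial.X ^ 2 with hP
      have h0 : PowerSeries.constantCoeff (P : PowerSeries ℤ) = ((1 : ℤˣ) : ℤ) := by simp [hP]
      have h := congrArg (PowerSeries.coeff 1)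
        (PowerSeries.mul_invOfUnit (P : PowerSeries ℤ) 1 h0)
      rw [PowerSeries.coeff_mul, show (Finset.HasAntidiagonal.antidiagonal 1 : Finset (ℕ × ℕ)) =
          {(0, 1), (1, 0)} from rfl, Finset.sum_pair (by decide),
        PowerSeries.coeff_zero_eq_constantCoeff, h0, PowerSeries.constantCoeff_invOfUnit,
        PowerSeries.coeff_one, if_neg one_ne_zero, Polynomial.coeff_coe,
        show P.coeff 1 = -a by simp [hP, Polynomial.coeff_one]] at h
      simp only [inv_one, Units.val_one, one_mul, mul_one] at h
      exact_mod_cast (by linarith :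
        PowerSeries.coeff 1 (PowerSeries.invOfUnit (P : PowerSeries ℤ) 1) = a)
    · rw [FA.Root.coeff_invOfUnit_quadratic]
      push_cast
      ring
  · by_cases hs : (W.minimal R).HasSplitMultiplicativeReduction R
    · exact hbad 1 (by simp) (by rw [localPolynomial, if_neg hg, if_pos hs]; simp)
    · by_cases hm : (W.minimal R).HasMultiplicativeReduction R
      · exact hbad (-1) (by simp)
          (by rw [localPolynomial, if_neg hg, if_neg hs, if_pos hm]; simp)
      · exact hbad 0 (by simp)
          (by rw [localPolynomial, if_neg hg, if_neg hs, if_neg hm]; simp)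

end Local

/-- **The coefficients of the L-function** of a Weierstrass curve over `ℚ`: `|a_n| ≤ d(n) √n`. -/
theorem abs_LFunction_le (E : WeierstrassCurve ℚ) (n : ℕ) :
    |(E.LFunction n : ℝ)| ≤ (σ 0 n : ℕ) * Real.sqrt n := by
  induction n using Nat.recOnPosPrimePosCoprime with
  | prime_pow p k hp _ =>
    obtain ⟨v, rfl⟩ : ∃ v : HeightOneSpectrum (𝓞 ℚ), (primesEquiv v : ℕ) = p :=
      ⟨primesEquiv.symm (⟨p, hp⟩ : Nat.Primes),
        congrArg Subtype.val (primesEquiv.apply_symm_apply (⟨p, hp⟩ : Nat.Primes))⟩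
    have hcard := FA.Root.natCard_residueField v
    have : Finite (IsLocalRing.ResidueField (v.adicCompletionIntegers ℚ)) :=
      Nat.finite_of_card_ne_zero (by rw [hcard]; exact hp.ne_zero)
    have h := abs_coeff_localPowerSeries_le (R := v.adicCompletionIntegers ℚ)
      (E.baseChange (v.adicCompletion ℚ)) k
    rw [hcard, ← FA.Root.LFunction_apply_prime_pow E v k] at h
    rw [sigma_zero_apply_prime_pow hp, Nat.cast_pow, Real.sqrt_eq_rpow,
      ← Real.rpow_natCast_mul (Nat.cast_nonneg _), mul_comm (k : ℝ), Real.rpow_mul_natCast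
      (Nat.cast_nonneg _), ← Real.sqrt_eq_rpow]
    exact_mod_cast h
  | zero => simp
  | one => simp [(FA.Root.isMultiplicative_LFunction E).map_one]
  | coprime a b _ _ hab iha ihb =>
    rw [(FA.Root.isMultiplicative_LFunction E).map_mul_of_coprime hab,
      isMultiplicative_sigma.map_mul_of_coprime hab, Int.cast_mul, abs_mul, Nat.cast_mul,
      Nat.cast_mul, Real.sqrt_mul (Nat.cast_nonneg _)]
    calc _ ≤ ((σ 0 a : ℕ) * Real.sqrt a) * ((σ 0 b : ℕ) * Real.sqrt b) :=
          mul_le_mul iha ihb (abs_nonneg _) (by positivity)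
      _ = _ := by ring

/-- The L-series of the number of divisors converges for `1 < re s`. -/
theorem LSeriesSummable_sigma_zero {s : ℂ} (hs : 1 < s.re) :
    LSeriesSummable (fun n => ((σ 0 n : ℕ) : ℂ)) s := by
  have h1 : LSeriesSummable (fun _ => (1 : ℂ)) s :=
    LSeriesSummable_of_bounded_of_one_lt_re (m := 1) (fun _ _ => by simp) hs
  refine (LSeriesSummable_congr s fun {n} _ => ?_).mp (h1.convolution h1)
  rw [LSeries.convolution_def, sigma_zero_apply]
  simp [← Nat.map_div_right_divisors]

/-- **The L-series of a Weierstrass curve over `ℚ` converges absolutely for `3/2 < re s`.** -/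
theorem LSeriesSummable_LFunction (E : WeierstrassCurve ℚ) {s : ℂ} (hs : 3 / 2 < s.re) :
    LSeriesSummable ((↑) ∘ E.LFunction) s := by
  have hd := LSeriesSummable_sigma_zero (s := s - (1 / 2 : ℝ)) (by
    rw [Complex.sub_re, Complex.ofReal_re]; linarith)
  refine Summable.of_norm_bounded (hd.norm) fun n => ?_
  rw [LSeries.norm_term_eq, LSeries.norm_term_eq]
  rcases eq_or_ne n 0 with rfl | hn
  · simp
  simp only [if_neg hn, Function.comp_apply, Complex.norm_intCast, Complex.norm_natCast]
  have hn0 : (0 : ℝ) < n := Nat.cast_pos.mpr (Nat.pos_of_ne_zero hn)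
  rw [Complex.sub_re, Complex.ofReal_re, Real.rpow_sub hn0, div_div_eq_mul_div,
    ← Real.sqrt_eq_rpow]
  exact div_le_div_of_nonneg_right (abs_LFunction_le E n) (Real.rpow_nonneg hn0.le _)

/-- The abscissa of absolute convergence is at most `3/2`. -/
theorem abscissaOfAbsConv_LFunction_le (E : WeierstrassCurve ℚ) :
    LSeries.abscissaOfAbsConv ((↑) ∘ E.LFunction) ≤ (3 / 2 : ℝ) :=
  LSeries.abscissaOfAbsConv_le_of_forall_lt_LSeriesSummable fun _ hy =>
    LSeriesSummable_LFunction E (by simpa using hy)

end FA.HasseBound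

end
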