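import Fermat.Agent.Frob.Trace
import Mathlib.FieldTheory.IsAlgClosed.AlgebraicClosure
import Mathlib.Analysis.Real.Sqrt

/-!
# Hasse's bound over prime fields

The height on the points over the function field is a nonnegative quadratic form which takes the
values `m² + t m n + p n²` on the span of the generic point and its Frobenius image, so `t² ≤ 4 p`
for the trace `t` of Frobenius.
-/

set_option autoImplicit false
set_option linter.unusedSectionVars false

noncomputable section

open WeierstrassCurve FA.Frob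

namespace FA.HasseBound

universe u

/-- The trace of the Frobenius endomorphism satisfies `t² ≤ 4 l`. -/
theorem trEnd_sq_le {k : Type u} [Field k] [IsAlgClosed k] {l : ℕ} [Fact l.Prime] [CharP k l]
    (W : WeierstrassCurve k) [W.IsElliptic] [DecidableEq k] [DecidableEq (FF W)]
    (hW : W.map (frobenius k l) = W) : trEnd W hW ^ 2 ≤ 4 * (l : ℤ) := by
  have e := (isPara_hM W).map_combo (trEnd W hW) (-2) (g0 W) (g1 W hW)
  have h0 : (0 : ℤ) ≤ hM W (trEnd W hW • g0 W + (-2 : ℤ) • g1 W hW) := Int.natCast_nonneg _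
  rw [hM_g0, hM_g1, ← trEnd] at e
  rw [e] at h0
  nlinarith [h0]

/-- **Hasse's theorem**: the trace of Frobenius `t = p + 1 - #W(𝔽_p)` has `t² ≤ 4 p`. -/
theorem traceOfFrobenius_sq_le {p : ℕ} [Fact p.Prime] (W : WeierstrassCurve (ZMod p))
    [W.IsElliptic] : W.traceOfFrobenius ^ 2 ≤ 4 * (p : ℤ) := by
  classical
  have : CharP (AlgebraicClosure (ZMod p)) p :=
    charP_of_injective_algebraMap (algebraMap (ZMod p) (AlgebraicClosure (ZMod p))).injective p
  rw [← trEnd_map W (algebraMap (ZMod p) (AlgebraicClosure (ZMod p)))]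
  exact trEnd_sq_le _ _

/-- **Hasse's theorem**, in terms of the number of points: `|p + 1 - #W(𝔽_p)| ≤ 2 √p`. -/
theorem hasse {p : ℕ} [Fact p.Prime] (W : WeierstrassCurve (ZMod p)) [W.IsElliptic] :
    |(p : ℝ) + 1 - Nat.card W.toAffine.Point| ≤ 2 * Real.sqrt p := by
  have h : ((W.traceOfFrobenius : ℝ)) ^ 2 ≤ 4 * (p : ℝ) := by
    exact_mod_cast traceOfFrobenius_sq_le W
  rw [show (p : ℝ) + 1 - Nat.card W.toAffine.Point = (W.traceOfFrobenius : ℝ) by
    simp [WeierstrassCurve.traceOfFrobenius, WeierstrassCurve.card]]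
  calc |(W.traceOfFrobenius : ℝ)| ≤ Real.sqrt (4 * p) := Real.abs_le_sqrt h
    _ = 2 * Real.sqrt p := by
      rw [Real.sqrt_mul (by norm_num), show (4 : ℝ) = 2 ^ 2 by norm_num,
        Real.sqrt_sq (by norm_num)]

end FA.HasseBound

end
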