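import Fermat.Agent.HasseBound.FiniteField
import Mathlib.FieldTheory.IsAlgClosed.AlgebraicClosure

/-!
# Point counts over the extensions of a finite field

With `t = q + 1 - #W(F)` the numbers `s_n = q^n + 1 - #W(F_{q^n})` satisfy `s₀ = 2`, `s₁ = t`,
`s_{n+2} = t s_{n+1} - q s_n`; so `s_n = α^n + β^n` with `|α| = |β| = √q`. The proof applies the
height to the iterates of the `q`-power map at the generic point.
-/

set_option autoImplicit false
set_option linter.unusedSectionVars false

noncomputable section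

open WeierstrassCurve Polynomial FA.Frob Filter

namespace FA.HasseBound

universe u v

/-- The sequence `s₀ = 2`, `s₁ = t`, `s_{n+2} = t s_{n+1} - q s_n`. -/
def pointTrace (t q : ℤ) : ℕ → ℤ
  | 0 => 2
  | 1 => t
  | n + 2 => t * pointTrace t q (n + 1) - q * pointTrace t q n

/-- Its closed form. -/
theorem pointTrace_eq {t q : ℤ} {α β : ℂ} (hs : α + β = (t : ℂ)) (hp : α * β = (q : ℂ)) :
    ∀ n, (pointTrace t q n : ℂ) = α ^ n + β ^ n
  | 0 => by simp [pointTrace]; norm_num
  | 1 => by simp [pointTrace, hs]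
  | n + 2 => by
    rw [pointTrace, Int.cast_sub, Int.cast_mul, Int.cast_mul, pointTrace_eq hs hp (n + 1),
      pointTrace_eq hs hp n, ← hs, ← hp]
    ring

section

variable {k : Type u} [Field k] [DecidableEq k] {l : ℕ} [Fact l.Prime] [CharP k l] {n : ℕ}
  (W : WeierstrassCurve k) (hW : W.map (iterateFrobenius k l n) = W)

/-- The iterates of the `q`-power endomorphism. -/
def qIter : ℕ → (W.toAffine.Point →+ W.toAffine.Point)
  | 0 => AddMonoidHom.id _
  | j + 1 => (qEnd W hW).comp (qIter j)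

theorem qIter_some : ∀ (j : ℕ) (x y : k) (h : W.toAffine.Nonsingular x y),
    ∃ h', qIter W hW j (.some x y h) = .some (x ^ (l ^ n) ^ j) (y ^ (l ^ n) ^ j) h'
  | 0, x, y, h => ⟨by simpa using h, by simp [qIter]⟩
  | j + 1, x, y, h => by
    obtain ⟨h', e⟩ := qIter_some j x y h
    have h2 := nonsingular_mapHom (iterateFrobenius k l n) hW h'
    have e' : ∀ z : k, iterateFrobenius k l n (z ^ (l ^ n) ^ j) = z ^ (l ^ n) ^ (j + 1) := fun z => by
      rw [iterateFrobenius_def, ← pow_mul z, ← pow_succ]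
    simp only [e'] at h2
    refine ⟨h2, ?_⟩
    rw [qIter, AddMonoidHom.comp_apply, e, qEnd, mapHom_some]
    simp only [e']

variable [DecidableEq (FF W)] [W.IsElliptic]

/-- The images of the generic point under the iterates. -/
def gi : ℕ → MM W
  | 0 => g0 W
  | j + 1 => ⟨qGen W hW (gi j).1, qGen_mem W hW (gi j).2⟩

theorem spec_gi : ∀ j, Spec W (gi W hW j).1 (qIter W hW j)
  | 0 => spec_gen W
  | j + 1 => spec_qGen W hW (spec_gi j)

variable [IsAlgClosed k]

theorem hM_gi : ∀ j, hM W (gi W hW j) = ((l : ℤ) ^ n) ^ j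
  | 0 => by rw [pow_zero]; exact hM_g0 W
  | j + 1 => by
    have h := hM_gi j
    simp only [hM] at h ⊢
    rw [gi, hgt_qGen W hW (gi W hW j).2, Nat.cast_mul, h, Nat.cast_pow, pow_succ']

/-- The kernel of `c - F^j` for `c = ±1` and `j ≥ 1`. -/
theorem natCard_ker_gi (hn : n ≠ 0) {c : ℤ} (hc : c ^ 2 = 1) {j : ℕ} (hj : j ≠ 0) :
    (Nat.card (c • AddMonoidHom.id _ - qIter W hW j).ker : ℤ) =
      1 + ((l : ℤ) ^ n) ^ j - c * pol (hM W) (g0 W) (gi W hW j) ∧
    Function.Surjective (c • AddMonoidHom.id _ - qIter W hW j :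
      W.toAffine.Point →+ W.toAffine.Point) := by
  obtain ⟨i, rfl⟩ := Nat.exists_eq_succ_of_ne_zero hj
  have h1 : (1 : ℤ) < ((l : ℤ) ^ n) ^ (i + 1) := one_lt_pow₀
    (one_lt_pow₀ (by exact_mod_cast (Fact.out : l.Prime).one_lt) hn) i.succ_ne_zero
  have hck : (c : k) ≠ 0 := fun h0 => by
    have := congrArg (Int.cast : ℤ → k) hc
    rw [Int.cast_pow, h0, Int.cast_one, zero_pow two_ne_zero] at this
    exact zero_ne_one this
  have h := natCard_ker_sub_aux W hck (spec_gi W hW (i + 1))
    (F := gi W hW (i + 1)) (insep_qGen W hW hn (gi W hW i).2) (by rw [hM_gi]; omega)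
    (by rw [hM_gi, hc]; omega)
  exact ⟨by rw [h.1, hM_gi, hc], h.2⟩

/-- The `q`-power map multiplies the polar form by `q`. -/
theorem hM_shift (x : MM W) :
    hM W ⟨qGen W hW x.1, qGen_mem W hW x.2⟩ = (l : ℤ) ^ n * hM W x := by
  simp only [hM]
  rw [hgt_qGen W hW x.2, Nat.cast_mul, Nat.cast_pow]

/-- The trace of the second iterate. -/
theorem pol_gi_two (hn : n ≠ 0) :
    pol (hM W) (g0 W) (gi W hW 2) = pol (hM W) (g0 W) (gi W hW 1) ^ 2 - 2 * (l : ℤ) ^ n := by
  obtain ⟨k₁, s₁⟩ := natCard_ker_gi W hW hn (c := 1) (by norm_num) one_ne_zero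
  obtain ⟨k₂, -⟩ := natCard_ker_gi W hW hn (c := -1) (by norm_num) one_ne_zero
  obtain ⟨k₃, -⟩ := natCard_ker_gi W hW hn (c := 1) (by norm_num) two_ne_zero
  set f₁ := (1 : ℤ) • AddMonoidHom.id _ - qIter W hW 1 with hf₁
  set f₂ := (-1 : ℤ) • AddMonoidHom.id _ - qIter W hW 1 with hf₂
  have hcomp : ((1 : ℤ) • AddMonoidHom.id _ - qIter W hW 2).ker = (f₂.comp f₁).ker := by
    ext Q
    simp only [AddMonoidHom.mem_ker, hf₁, hf₂, qIter, AddMonoidHom.comp_apply,
      AddMonoidHom.sub_apply, AddMonoidHom.id_apply, one_zsmul, neg_zsmul,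
      AddMonoidHom.neg_apply, map_sub]
    constructor
    · intro h; rw [← neg_eq_zero] at h; rw [← h]; abel
    · intro h; rw [← neg_eq_zero] at h; rw [← h]; abel
  have hmul : Nat.card (f₂.comp f₁).ker = Nat.card f₁.ker * Nat.card f₂.ker := by
    let r : (f₂.comp f₁).ker →+ f₂.ker :=
      (f₁.comp (f₂.comp f₁).ker.subtype).codRestrict _ fun Q => Q.2
    have hr : Function.Surjective r := fun ⟨Q, hQ⟩ => by
      obtain ⟨R, hR⟩ := s₁ Q
      exact ⟨⟨R, by rw [AddMonoidHom.mem_ker, AddMonoidHom.comp_apply, hR]; exact hQ⟩,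
        Subtype.ext hR⟩
    rw [AddSubgroup.card_eq_card_quotient_mul_card_addSubgroup r.ker,
      Nat.card_congr (QuotientAddGroup.quotientKerEquivOfSurjective r hr).toEquiv, mul_comm]
    congr 1
    refine Nat.card_congr ⟨fun Q => ⟨Q.1.1, congrArg Subtype.val (AddMonoidHom.mem_ker.mp Q.2)⟩,
      fun Q => ⟨⟨Q.1, ?_⟩, ?_⟩, fun Q => rfl, fun Q => rfl⟩
    · rw [AddMonoidHom.mem_ker, AddMonoidHom.comp_apply, AddMonoidHom.mem_ker.mp Q.2, map_zero]
    · exact AddMonoidHom.mem_ker.mpr (Subtype.ext (AddMonoidHom.mem_ker.mp Q.2))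
  rw [hcomp, hmul, Nat.cast_mul, k₁, k₂] at k₃
  linear_combination k₃

/-- **The recursion of the traces of the iterates.** -/
theorem pol_gi_eq (hn : n ≠ 0) : ∀ j, pol (hM W) (g0 W) (gi W hW j) =
    pointTrace (pol (hM W) (g0 W) (gi W hW 1)) ((l : ℤ) ^ n) j := by
  set q : ℤ := (l : ℤ) ^ n with hq
  set t := pol (hM W) (g0 W) (gi W hW 1) with ht
  have hh := isPara_hM W
  -- the shift of `G₂ - t G₁ + q G₀` has height zero
  let Z : ℕ → MM W := fun j => ((-t) • gi W hW (j + 1) + q • gi W hW j) + gi W hW (j + 2)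
  have hZ : ∀ j, hM W (Z j) = 0 := by
    intro j
    induction j with
    | zero =>
      have e12 : pol (hM W) (gi W hW 1) (gi W hW 2) = q * t := by
        have key : (⟨qGen W hW (g0 W + gi W hW 1).1, qGen_mem W hW (g0 W + gi W hW 1).2⟩ : MM W) =
            gi W hW 1 + gi W hW 2 := Subtype.ext (map_add _ _ _)
        have h := hM_shift W hW (g0 W + gi W hW 1)
        rw [key] at h
        rw [ht]
        simp only [pol]
        rw [h, hM_gi, hM_gi, hM_g0, ← hq]
        ring
      show hM W ((-t) • gi W hW 1 + q • g0 W + gi W hW 2) = 0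
      rw [hh.map_add, hh.map_combo, hh.pol_add_left, hh.pol_zsmul_left, hh.pol_zsmul_left, e12,
        pol_gi_two W hW hn, hM_gi, hM_gi, hM_g0, hh.pol_comm (gi W hW 1) (g0 W), ← ht, ← hq]
      ring
    | succ j ih =>
      have key : (⟨qGen W hW (Z j).1, qGen_mem W hW (Z j).2⟩ : MM W) = Z (j + 1) := by
        refine Subtype.ext ?_
        simp only [Z, AddSubgroup.coe_add, AddSubgroup.coe_zsmul, map_add, map_zsmul]
        rfl
      rw [← key, hM_shift, ih, mul_zero]
  intro j
  induction j using Nat.twoStepInduction with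
  | zero =>
    show pol (hM W) (g0 W) (g0 W) = 2
    rw [hh.pol_self, hM_g0, mul_one]
  | one => rfl
  | more j ih₀ ih₁ =>
    have h := hh.pol_eq_zero (fun _ => Int.natCast_nonneg _) (hZ j) (g0 W)
    simp only [Z] at h
    rw [hh.pol_comm, hh.pol_add_right, hh.pol_add_right, hh.pol_zsmul_right, hh.pol_zsmul_right,
      ih₀, ih₁] at h
    rw [pointTrace]
    linarith

end

/-- **Point counts over extensions of a finite field.** -/
theorem natCard_point_extension {F : Type u} [Field F] [Fintype F]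
    (W : WeierstrassCurve F) [W.IsElliptic] (K : Type v) [Field K] [Fintype K] [Algebra F K] :
    (Nat.card (W.map (algebraMap F K)).toAffine.Point : ℤ) =
      (Fintype.card F : ℤ) ^ Module.finrank F K + 1 -
        pointTrace ((Fintype.card F : ℤ) + 1 - Nat.card W.toAffine.Point) (Fintype.card F)
          (Module.finrank F K) := by
  classical
  obtain ⟨l, hchar⟩ := CharP.exists F
  obtain ⟨n, hl, hcard⟩ := FiniteField.card F l
  have := Fact.mk hl
  have : CharP (AlgebraicClosure F) l :=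
    charP_of_injective_algebraMap (algebraMap F (AlgebraicClosure F)).injective l
  set f := algebraMap F (AlgebraicClosure F) with hf
  have hfix : ∀ a : F, iterateFrobenius (AlgebraicClosure F) l n (f a) = f a := fun a => by
    rw [iterateFrobenius_def, ← map_pow, ← hcard, FiniteField.pow_card]
  have hW : (W.map f).map (iterateFrobenius (AlgebraicClosure F) l n) = W.map f := by
    rw [WeierstrassCurve.map_map]
    congr 1
    exact RingHom.ext hfix
  have h1 : (Nat.card W.toAffine.Point : ℤ) =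
      1 + (Fintype.card F : ℤ) - pol (hM _) (g0 _) (gi (W.map f) hW 1) := by
    rw [natCard_point_eq_ker W f rfl (qIter _ hW 1) fun x y h => ?_,
      (natCard_ker_gi _ hW n.ne_zero (by norm_num) one_ne_zero).1, pow_one, one_mul, hcard,
      Nat.cast_pow]
    simpa [hcard] using qIter_some _ hW 1 x y h
  let φ : K →ₐ[F] AlgebraicClosure F := IsAlgClosed.lift
  have hφ : (W.map (algebraMap F K)).map φ.toRingHom = W.map f := by
    rw [WeierstrassCurve.map_map]
    congr 1
    exact RingHom.ext φ.commutes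
  set m := Module.finrank F K with hm
  have hK : Fintype.card K = (l ^ (n : ℕ)) ^ m := by rw [Module.card_eq_pow_finrank (K := F), hcard]
  have hm0 : m ≠ 0 := Module.finrank_pos.ne'
  rw [natCard_point_eq_ker (W.map (algebraMap F K)) φ.toRingHom hφ (qIter _ hW m) fun x y h => ?_,
    (natCard_ker_gi _ hW n.ne_zero (by norm_num) hm0).1, pol_gi_eq _ hW n.ne_zero, one_mul, hcard,
    Nat.cast_pow, show pol (hM _) (g0 _) (gi (W.map f) hW 1) =
      ((l : ℤ) ^ (n : ℕ) + 1 - Nat.card W.toAffine.Point) by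
        rw [hcard, Nat.cast_pow] at h1; linarith]
  · ring
  · rw [hK]; exact qIter_some _ hW m x y h

end FA.HasseBound

namespace FA.Summary

open FA.HasseBound

universe u v

/-- **The zeta function of an elliptic curve over a finite field** with `q` elements: there are
`α`, `β` of absolute value `√q` with `#E(K) = q^n + 1 - α^n - β^n` for every extension `K` of
degree `n`. -/
theorem pointCount_extensions {F : Type u} [Field F] [Fintype F]
    (W : WeierstrassCurve F) [W.IsElliptic] :
    ∃ α β : ℂ, ‖α‖ = Real.sqrt (Fintype.card F) ∧ ‖β‖ = Real.sqrt (Fintype.card F) ∧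
      α * β = Fintype.card F ∧
      ∀ (K : Type v) [Field K] [Fintype K] [Algebra F K],
        (Nat.card (W.map (algebraMap F K)).toAffine.Point : ℂ) =
          (Fintype.card F : ℂ) ^ Module.finrank F K + 1 -
            (α ^ Module.finrank F K + β ^ Module.finrank F K) := by
  set q : ℝ := (Fintype.card F : ℝ) with hq
  set t : ℤ := (Fintype.card F : ℤ) + 1 - Nat.card W.toAffine.Point with ht
  have hle : (t : ℝ) ^ 2 ≤ 4 * q := by
    rw [hq, ht]; exact_mod_cast sq_le_of_finite W
  obtain ⟨α, β, hsum, hprod, hnα, hnβ⟩ := exists_roots_norm_eq hle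
  rw [Complex.ofReal_intCast] at hsum
  rw [hq, Complex.ofReal_natCast] at hprod
  refine ⟨α, β, hnα, hnβ, hprod, fun K _ _ _ => ?_⟩
  have h := congrArg (Int.cast : ℤ → ℂ) (natCard_point_extension W K)
  push_cast at h
  rw [h, ← ht, pointTrace_eq hsum (by rw [Int.cast_natCast]; exact hprod)]

end FA.Summary

end
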