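import Fermat.Agent.HasseBound.Main
import Mathlib.Algebra.CharP.Lemmas
import Mathlib.FieldTheory.Finite.Basic

/-!
# Hasse's bound over a finite field

The `q`-power map has height `q` and is inseparable, so the argument over prime fields applies.
-/

set_option autoImplicit false
set_option linter.unusedSectionVars false
set_option linter.style.haveILetI false

noncomputable section

open WeierstrassCurve Polynomial FA.Frob Filter

namespace FA.HasseBound

universe u v

/-- Two numbers of absolute value `√q` with sum `a` and product `q`, for `a² ≤ 4 q`. -/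
theorem exists_roots_norm_eq {a q : ℝ} (h : a ^ 2 ≤ 4 * q) :
    ∃ α β : ℂ, α + β = (a : ℂ) ∧ α * β = (q : ℂ) ∧ ‖α‖ = Real.sqrt q ∧ ‖β‖ = Real.sqrt q := by
  obtain ⟨t, ht⟩ : ∃ t : ℝ, t ^ 2 = q - (a / 2) ^ 2 :=
    ⟨Real.sqrt (q - (a / 2) ^ 2), Real.sq_sqrt (by nlinarith)⟩
  refine ⟨⟨a / 2, t⟩, ⟨a / 2, -t⟩, ?_, ?_, ?_, ?_⟩
  · apply Complex.ext <;> simp
  · apply Complex.ext
    · simp only [Complex.mul_re, Complex.ofReal_re]; linarith
    · simp only [Complex.mul_im, Complex.ofReal_im]; ring
  · rw [Complex.norm_def, Complex.normSq_mk]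
    congr 1
    linarith
  · rw [Complex.norm_def, Complex.normSq_mk]
    congr 1
    linarith

section

variable {k : Type u} [Field k] {l : ℕ} [Fact l.Prime] [CharP k l] {n : ℕ}
  (W : WeierstrassCurve k) (hW : W.map (iterateFrobenius k l n) = W)

theorem map_iterate_WF (hW : W.map (iterateFrobenius k l n) = W) :
    (WF W).map (iterateFrobenius (FF W) l n) = WF W := by
  have h : (iterateFrobenius (FF W) l n).comp (kEmb W) =
      (kEmb W).comp (iterateFrobenius k l n) :=
    RingHom.ext fun a => by simp [iterateFrobenius_def]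
  rw [WF, WeierstrassCurve.map_map, h, ← WeierstrassCurve.map_map, hW]

variable [DecidableEq k] [DecidableEq (FF W)]

/-- The `q`-power endomorphism. -/
def qEnd : W.toAffine.Point →+ W.toAffine.Point :=
  mapHom (iterateFrobenius k l n) hW

/-- The `q`-power map on the points over the function field. -/
def qGen : (WF W).toAffine.Point →+ (WF W).toAffine.Point :=
  mapHom (iterateFrobenius (FF W) l n) (map_iterate_WF W hW)

variable [W.IsElliptic]

theorem qGen_mem {Z : (WF W).toAffine.Point} (hZ : Z ∈ MM W) : qGen W hW Z ∈ MM W := by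
  rw [mem_MM_iff] at hZ ⊢
  rw [← map_neg, ← hZ]
  rcases Z with _ | ⟨x, y, h⟩
  · rfl
  · simp only [qGen, mapHom_some, iterateFrobenius_def, map_pow]

theorem spec_qGen {Z : (WF W).toAffine.Point} {g : W.toAffine.Point →+ W.toAffine.Point}
    (h : Spec W Z g) : Spec W (qGen W hW Z) ((qEnd W hW).comp g) := by
  filter_upwards [h] with P hP
  rcases Z with _ | ⟨X, Y, hXY⟩
  · show qEnd W hW (g P) = 0
    rw [show g P = 0 from hP, map_zero]
  rcases P with _ | ⟨x, y, hxy⟩
  · exact hP
  obtain ⟨hX, hY, h', he⟩ := hP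
  have e : ∀ z : FF W, z ∈ regRing W x →
      iterateFrobenius (FF W) l n z ∈ regRing W x ∧
        ev W (iterateFrobenius (FF W) l n z) x y = iterateFrobenius k l n (ev W z x y) :=
    fun z hz => by
      refine ⟨pow_mem hz _, ?_⟩
      have := map_pow (evHom W x y hxy.1) ⟨z, hz⟩ (l ^ n)
      simpa [evHom_apply, iterateFrobenius_def] using this
  refine ⟨(e X hX).1, (e Y hY).1,
    by rw [(e X hX).2, (e Y hY).2]; exact nonsingular_mapHom _ hW h', ?_⟩
  rw [AddMonoidHom.comp_apply, he, qEnd, mapHom_some]
  simp only [(e X hX).2, (e Y hY).2]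

variable [IsAlgClosed k]

theorem exists_pvec_qGen {Z : (WF W).toAffine.Point} (hZ : Z ∈ MM W) :
    ∃ c : k, c ≠ 0 ∧ pvec W (qGen W hW Z) = C c • fun i => pvec W Z i ^ l ^ n := by
  have hq : l ^ n ≠ 0 := pow_ne_zero n (Fact.out : l.Prime).ne_zero
  refine exists_C_smul (noZero_pvec W _) (fun t ht => noZero_pvec W Z t (funext fun i => ?_))
    fun i j => ?_
  · have h0 := congrFun ht i
    simp only [eval_pow, Pi.zero_apply] at h0 ⊢
    exact (pow_eq_zero_iff hq).mp h0
  rcases Z with _ | ⟨x, y, h⟩
  · fin_cases i <;> fin_cases j <;>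
      simp [qGen, pvec, ← Affine.Point.zero_def, zero_pow hq]
  have key : (x ^ l ^ n).re.num * x.re.denom ^ l ^ n = x.re.num ^ l ^ n * (x ^ l ^ n).re.denom := by
    apply FaithfulSMul.algebraMap_injective k[X] (RatFunc k)
    rw [map_mul, map_mul, ← div_eq_div_iff (RatFunc.algebraMap_ne_zero (RatFunc.denom_ne_zero _))
      (RatFunc.algebraMap_ne_zero (pow_ne_zero _ (RatFunc.denom_ne_zero _))), RatFunc.num_div_denom,
      im_pow_eq_zero W (im_eq_zero W hZ), map_pow, map_pow, ← div_pow, RatFunc.num_div_denom]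
  fin_cases i <;> fin_cases j <;> simp [qGen, mapHom_some, pvec, iterateFrobenius_def]
  all_goals first | linear_combination key | linear_combination -key

theorem hgt_qGen {Z : (WF W).toAffine.Point} (hZ : Z ∈ MM W) :
    hgt W (qGen W hW Z) = l ^ n * hgt W Z := by
  obtain ⟨c, hc, e⟩ := exists_pvec_qGen W hW hZ
  rw [hgt, e, pdeg_C_smul hc, pdeg_pow]
  rfl

theorem insep_qGen (hn : n ≠ 0) {Z : (WF W).toAffine.Point} (hZ : Z ∈ MM W) :
    Insep W (qGen W hW Z) := by
  obtain ⟨c, hc, e⟩ := exists_pvec_qGen W hW hZ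
  have : CharP k[X] l := Polynomial.instCharP l
  constructor <;>
    simp [e, derivative_pow, CharP.cast_eq_zero, Nat.cast_pow, zero_pow hn]

/-- The image of the generic point. -/
def gq : MM W := ⟨qGen W hW (gen W), qGen_mem W hW (gen_mem W)⟩

/-- The points fixed by the `q`-power map obey Hasse's bound. -/
theorem natCard_ker_bound (hn : n ≠ 0) :
    ((l : ℤ) ^ n + 1 -
      Nat.card ((1 : ℤ) • AddMonoidHom.id _ - qEnd W hW).ker) ^ 2 ≤ 4 * (l : ℤ) ^ n := by
  have hg : hM W (gq W hW) = (l : ℤ) ^ n := by
    simp [hM, gq, hgt_qGen W hW (gen_mem W), hgt_gen]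
  have h1 : (1 : ℤ) < (l : ℤ) ^ n :=
    one_lt_pow₀ (by exact_mod_cast (Fact.out : l.Prime).one_lt) hn
  have hk := (natCard_ker_sub_aux W (c := 1) (by simp) (spec_qGen W hW (spec_gen W))
    (F := gq W hW) (insep_qGen W hW hn (gen_mem W)) (by rw [hg]; omega) (by rw [hg]; omega)).1
  set t := pol (hM W) (g0 W) (gq W hW) with ht
  have e := (isPara_hM W).map_combo t (-2) (g0 W) (gq W hW)
  have h0 : (0 : ℤ) ≤ hM W (t • g0 W + (-2 : ℤ) • gq W hW) := Int.natCast_nonneg _
  rw [hM_g0, hg, ← ht] at e
  rw [e] at h0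
  rw [hg] at hk
  simp only [AddMonoidHom.comp_id] at hk
  rw [hk]
  nlinarith [h0]

end

/-- The points over a finite field are the points over a larger field that are fixed by an
endomorphism acting as the power map. -/
theorem natCard_point_eq_ker {K : Type u} [Field K] [Fintype K] [DecidableEq K] {k : Type v}
    [Field k] [DecidableEq k] (V : WeierstrassCurve K) (f : K →+* k) {V' : WeierstrassCurve k}
    (hV : V.map f = V') (π : V'.toAffine.Point →+ V'.toAffine.Point)
    (hπ : ∀ x y h, ∃ h', π (.some x y h) = .some (x ^ Fintype.card K) (y ^ Fintype.card K) h') :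
    Nat.card V.toAffine.Point = Nat.card ((1 : ℤ) • AddMonoidHom.id _ - π).ker := by
  classical
  subst hV
  have hr : (mapHom f rfl : V.toAffine.Point →+ (V.map f).toAffine.Point).range =
      ((1 : ℤ) • AddMonoidHom.id _ - π).ker := by
    ext P
    simp only [AddMonoidHom.mem_ker, AddMonoidHom.sub_apply, one_zsmul, AddMonoidHom.id_apply,
      sub_eq_zero, AddMonoidHom.mem_range]
    constructor
    · rintro ⟨_ | ⟨x, y, hxy⟩, rfl⟩
      · exact (map_zero π).symm
      · obtain ⟨h', e⟩ := hπ (f x) (f y) (nonsingular_mapHom f rfl hxy)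
        rw [mapHom_some, e]
        simp only [← map_pow, FiniteField.pow_card]
    · intro hP
      rcases P with _ | ⟨x, y, hxy⟩
      · exact ⟨0, rfl⟩
      have hroot : ∀ z, z ^ Fintype.card K = z → ∃ a, f a = z := by
        intro z hz
        by_contra hne
        push Not at hne
        have hX := FiniteField.X_pow_card_sub_X_ne_zero k (Fintype.one_lt_card (α := K))
        have hsub : insert z (Finset.univ.image f) ⊆
            (X ^ Fintype.card K - X : k[X]).roots.toFinset := by
          intro w hw
          rw [Multiset.mem_toFinset, mem_roots hX]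
          rcases Finset.mem_insert.mp hw with rfl | hw
          · simp [hz]
          · obtain ⟨a, -, rfl⟩ := Finset.mem_image.mp hw
            simp [← map_pow, FiniteField.pow_card]
        have hc := (Finset.card_le_card hsub).trans ((Multiset.toFinset_card_le _).trans
          (card_roots' _))
        rw [Finset.card_insert_of_notMem (by simpa using fun a => hne a),
          Finset.card_image_of_injective _ f.injective, Finset.card_univ,
          FiniteField.X_pow_card_sub_X_natDegree_eq _ (Fintype.one_lt_card (α := K))] at hc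
        omega
      obtain ⟨h', e⟩ := hπ x y hxy
      rw [e, Affine.Point.some.injEq] at hP
      obtain ⟨a, rfl⟩ := hroot x hP.1.symm
      obtain ⟨b, rfl⟩ := hroot y hP.2.symm
      exact ⟨.some a b ((V.toAffine.map_nonsingular f.injective a b).mp hxy), rfl⟩
  rw [← hr, Nat.card_congr (AddMonoidHom.ofInjective (mapHom_injective f rfl)).toEquiv.symm]

/-- **Hasse's theorem over a finite field**: `(q + 1 - #W(F))² ≤ 4 q`. -/
theorem sq_le_of_finite {F : Type u} [Field F] [Fintype F] (W : WeierstrassCurve F)
    [W.IsElliptic] :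
    ((Fintype.card F : ℤ) + 1 - Nat.card W.toAffine.Point) ^ 2 ≤ 4 * (Fintype.card F : ℤ) := by
  classical
  obtain ⟨l, hchar⟩ := CharP.exists F
  obtain ⟨n, hl, hcard⟩ := FiniteField.card F l
  haveI := Fact.mk hl
  haveI : CharP (AlgebraicClosure F) l :=
    charP_of_injective_algebraMap (algebraMap F (AlgebraicClosure F)).injective l
  set f := algebraMap F (AlgebraicClosure F)
  have hfix : ∀ a : F, iterateFrobenius (AlgebraicClosure F) l n (f a) = f a := fun a => by
    rw [iterateFrobenius_def, ← map_pow, ← hcard, FiniteField.pow_card]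
  have hW : (W.map f).map (iterateFrobenius (AlgebraicClosure F) l n) = W.map f := by
    rw [WeierstrassCurve.map_map]
    congr 1
    exact RingHom.ext hfix
  have h := natCard_ker_bound (W.map f) hW n.ne_zero
  rw [← natCard_point_eq_ker W f rfl (qEnd (W.map f) hW) fun x y hxy => by
    have h' := nonsingular_mapHom _ hW hxy
    simp only [iterateFrobenius_def, ← hcard] at h'
    exact ⟨h', by simp [qEnd, mapHom_some, iterateFrobenius_def, ← hcard]⟩] at h
  rw [hcard]
  exact_mod_cast h

end FA.HasseBound

namespace FA.Summary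

/-- **Hasse's theorem**: an elliptic curve over a finite field with `q` elements has
`|q + 1 - #E(F)| ≤ 2 √q`. -/
theorem hasse_bound_finite {F : Type*} [Field F] [Fintype F]
    (W : WeierstrassCurve F) [W.IsElliptic] :
    |(Fintype.card F : ℝ) + 1 - Nat.card W.toAffine.Point| ≤
      2 * Real.sqrt (Fintype.card F) := by
  have h : (((Fintype.card F : ℤ) + 1 - Nat.card W.toAffine.Point : ℤ) : ℝ) ^ 2 ≤
      4 * (Fintype.card F : ℝ) := by
    exact_mod_cast FA.HasseBound.sq_le_of_finite W
  push_cast at h
  calc |(Fintype.card F : ℝ) + 1 - Nat.card W.toAffine.Point|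
      ≤ Real.sqrt (4 * Fintype.card F) := Real.abs_le_sqrt h
    _ = 2 * Real.sqrt (Fintype.card F) := by
      rw [Real.sqrt_mul (by norm_num), show (4 : ℝ) = 2 ^ 2 by norm_num,
        Real.sqrt_sq (by norm_num)]

end FA.Summary

end
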